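import Fermat.Agent.CyclotomicCoeff.Truncation
import Mathlib.NumberTheory.SumPrimeReciprocals

/-!
# The theorems of Suzuki and Migotti

Some dyadic interval holds any given number of primes, as the sum of the reciprocals of the primes
diverges; the product of `t` of them gives the coefficients `1 - t` and `2 - t`. For two primes
`Φ_{pq} (1 - X ^ (pq)) = (1 - X) ∑ X ^ (a p + b q)` bounds the coefficients.
-/

set_option autoImplicit false

noncomputable section

open Polynomial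

namespace FA.CyclotomicCoeff

theorem exists_dyadic_primes (t : ℕ) :
    ∃ j, t ≤ ((Finset.Ico (2 ^ j) (2 ^ (j + 1))).filter Nat.Prime).card := by
  by_contra! h
  apply not_summable_one_div_on_primes
  obtain ⟨g, hg⟩ : ∃ g : ℕ → ℝ, g = Set.indicator {p | p.Prime} fun n : ℕ => (1 : ℝ) / n :=
    ⟨_, rfl⟩
  rw [← hg]
  have hnn : ∀ n, 0 ≤ g n := fun n => by
    rw [hg]
    exact Set.indicator_nonneg (fun m _ => by positivity) n
  refine summable_of_sum_range_le (c := 2 * t + g 0) hnn fun N => ?_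
  have hblock : ∀ j, ∑ n ∈ Finset.Ico (2 ^ j) (2 ^ (j + 1)), g n ≤ (t : ℝ) * (1 / 2) ^ j :=
    fun j => by
    rw [hg]
    simp only [Set.indicator_apply, Set.mem_ofPred_eq]
    rw [← Finset.sum_filter]
    refine (Finset.sum_le_card_nsmul _ _ ((1 / 2 : ℝ) ^ j) fun n hn => ?_).trans ?_
    · rw [Finset.mem_filter, Finset.mem_Ico] at hn
      rw [div_pow, one_pow]
      exact one_div_le_one_div_of_le (by positivity) (by exact_mod_cast hn.1.1)
    · rw [nsmul_eq_mul]
      exact mul_le_mul_of_nonneg_right (by exact_mod_cast (h j).le) (by positivity)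
  have hcum : ∀ J, ∑ n ∈ Finset.range (2 ^ J), g n ≤
      g 0 + ∑ j ∈ Finset.range J, (t : ℝ) * (1 / 2) ^ j := fun J => by
    induction J with
    | zero => simp
    | succ J ih =>
      rw [← Finset.sum_range_add_sum_Ico _ (Nat.pow_le_pow_right two_pos J.le_succ),
        Finset.sum_range_succ _ J]
      linarith [hblock J]
  calc ∑ n ∈ Finset.range N, g n ≤ ∑ n ∈ Finset.range (2 ^ N), g n :=
        Finset.sum_le_sum_of_subset_of_nonneg (Finset.range_mono Nat.lt_two_pow_self.le)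
          fun n _ _ => hnn n
    _ ≤ g 0 + ∑ j ∈ Finset.range N, (t : ℝ) * (1 / 2) ^ j := hcum N
    _ ≤ 2 * t + g 0 := by
        rw [← Finset.mul_sum]
        nlinarith [sum_geometric_two_le N, Nat.cast_nonneg (α := ℝ) t]

/-- Odd `t ≥ 3` gives `1 - t`, `2 - t` in `Φ_n` and their negatives in `Φ_{2n}`. -/
theorem suzuki_coefficients (t : ℕ) (ht : 3 ≤ t) (hodd : Odd t) :
    ∃ n k l : ℕ, (cyclotomic n ℤ).coeff k = 1 - (t : ℤ) ∧ (cyclotomic n ℤ).coeff l = 2 - (t : ℤ) ∧
      (cyclotomic (n * 2) ℤ).coeff k = (t : ℤ) - 1 ∧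
      (cyclotomic (n * 2) ℤ).coeff l = (t : ℤ) - 2 := by
  obtain ⟨j, hj⟩ := exists_dyadic_primes (t + 1)
  have hT := (Finset.card_erase_add_one (a := 2)
    (s := (Finset.Ico (2 ^ j) (2 ^ (j + 1))).filter Nat.Prime))
  obtain ⟨S, hSsub, hScard⟩ := Finset.exists_subset_card_eq
    (s := ((Finset.Ico (2 ^ j) (2 ^ (j + 1))).filter Nat.Prime).erase 2) (n := t) (by
      by_cases h2 : 2 ∈ (Finset.Ico (2 ^ j) (2 ^ (j + 1))).filter Nat.Prime
      · have := hT h2
        omega
      · rw [Finset.erase_eq_of_notMem h2]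
        omega)
  have hS : ∀ p ∈ S, (p.Prime ∧ p ≠ 2) ∧ 2 ^ j ≤ p ∧ p < 2 ^ (j + 1) := fun p hp => by
    have := hSsub hp
    simp only [Finset.mem_erase, Finset.mem_filter, Finset.mem_Ico] at this
    exact ⟨⟨this.2.2, this.1⟩, this.2.1⟩
  have hne : S.Nonempty := Finset.card_pos.1 (by omega)
  set P := S.max' hne
  have hP : P ∈ S := S.max'_mem hne
  have hbig : ∀ p ∈ S, ∀ q ∈ S, p ≠ q → P + 1 ≤ p + q := fun p hp q hq _ => by
    have := (hS P hP).2.2
    have := (hS p hp).2.1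
    have := (hS q hq).2.1
    rw [pow_succ] at *
    omega
  have hall : (S.filter fun p => p ≤ P).card = t := by
    rw [Finset.filter_true_of_mem fun p hp => Finset.le_max' S p hp, hScard]
  have hpodd : ∀ p ∈ S, Odd p := fun p hp => (hS p hp).1.1.odd_of_ne_two (hS p hp).1.2
  have hP2 : 2 ≤ P := (hS P hP).1.1.two_le
  have hlow : (S.filter fun p => p ≤ P - 2).card = t - 1 := by
    rw [show (S.filter fun p => p ≤ P - 2) = S.erase P by
      ext p
      simp only [Finset.mem_filter, Finset.mem_erase]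
      constructor
      · rintro ⟨hp, hle⟩
        exact ⟨by omega, hp⟩
      · rintro ⟨hne', hp⟩
        have hle : p ≤ P := Finset.le_max' S p hp
        obtain ⟨a, ha⟩ := hpodd p hp
        obtain ⟨c, hc⟩ := hpodd P hP
        exact ⟨hp, by omega⟩, Finset.card_erase_of_mem hP, hScard]
  obtain ⟨a1, a2⟩ := coeff_squarefree (S := S) (N := P + 1) (k := P) (Nat.lt_succ_self P)
    (hScard ▸ hodd) (fun p hp => (hS p hp).1) hbig
  obtain ⟨b1, b2⟩ := coeff_squarefree (S := S) (N := P + 1) (k := P - 2) (by omega)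
    (hScard ▸ hodd) (fun p hp => (hS p hp).1) hbig
  have hoddP : Odd P := hpodd P hP
  have hoddP2 : Odd (P - 2) := by
    obtain ⟨c, hc⟩ := hoddP
    exact ⟨c - 1, by have := (hS P hP).1.2; omega⟩
  rw [hall] at a1 a2
  rw [hlow, Nat.cast_sub (by omega)] at b1 b2
  rw [hoddP.neg_one_pow] at a2
  rw [hoddP2.neg_one_pow] at b2
  refine ⟨∏ p ∈ S, p, P, P - 2, a1, by rw [b1]; push_cast; ring, by rw [a2]; ring,
    by rw [b2]; push_cast; ring⟩

/-- **Suzuki's theorem.** -/
theorem suzuki (c : ℤ) : ∃ n k : ℕ, k ≤ (cyclotomic n ℤ).natDegree ∧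
    (cyclotomic n ℤ).coeff k = c := by
  suffices h : c ≠ 0 → ∃ n k : ℕ, (cyclotomic n ℤ).coeff k = c by
    rcases eq_or_ne c 0 with rfl | hc
    · refine ⟨4, 1, ?_, ?_⟩
      · rw [natDegree_cyclotomic]
        decide
      · rw [show (4 : ℕ) = 2 ^ (1 + 1) by norm_num, cyclotomic_prime_pow_eq_geom_sum Nat.prime_two]
        simp [Finset.sum_range_succ, coeff_one, coeff_X_pow]
    · obtain ⟨n, k, hk⟩ := h hc
      exact ⟨n, k, le_natDegree_of_ne_zero (by rw [hk]; exact hc), hk⟩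
  intro hc
  obtain ⟨m, hm⟩ : ∃ m : ℕ, m = c.natAbs := ⟨_, rfl⟩
  rcases Nat.even_or_odd m with he | ho
  · have hm0 : m ≠ 0 := by omega
    obtain ⟨r, hr⟩ := he
    obtain ⟨n, k, l, h1, -, h3, -⟩ := suzuki_coefficients (m + 1) (by omega) ⟨r, by omega⟩
    rcases Int.natAbs_eq c with h | h
    · exact ⟨n * 2, k, by rw [h3]; push_cast; omega⟩
    · exact ⟨n, k, by rw [h1]; push_cast; omega⟩
  · obtain ⟨r, hr⟩ := ho
    obtain ⟨n, k, l, -, h2, -, h4⟩ := suzuki_coefficients (m + 2) (by omega) ⟨r + 1, by omega⟩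
    rcases Int.natAbs_eq c with h | h
    · exact ⟨n * 2, l, by rw [h4]; push_cast; omega⟩
    · exact ⟨n, l, by rw [h2]; push_cast; omega⟩

/-- **Migotti's theorem.** -/
theorem migotti {p q : ℕ} (hp : p.Prime) (hq : q.Prime) (hne : p ≠ q) (k : ℕ) :
    |(cyclotomic (p * q) ℤ).coeff k| ≤ 1 := by
  have : Fact p.Prime := ⟨hp⟩
  have : Fact q.Prime := ⟨hq⟩
  obtain ⟨G, hG⟩ : ∃ G : ℤ[X], G = (∑ a ∈ Finset.range q, (X ^ p) ^ a) *
      ∑ b ∈ Finset.range p, (X ^ q) ^ b := ⟨_, rfl⟩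
  have hmain : cyclotomic (p * q) ℤ * ((X : ℤ[X]) ^ (p * q) - 1) = (X - 1) * G := by
    have h1 := cyclotomic_expand_eq_cyclotomic_mul hq
      (fun h => hne ((Nat.prime_dvd_prime_iff_eq hq hp).1 h).symm) ℤ
    have h2 := cyclotomic_prime_mul_X_sub_one ℤ p
    have h3 := congrArg (expand ℤ q) h2
    simp only [map_mul, map_sub, expand_X, map_one, map_pow, h1, ← pow_mul] at h3
    have ga := geom_sum_mul ((X : ℤ[X]) ^ p) q
    have gb := geom_sum_mul ((X : ℤ[X]) ^ q) p
    rw [← pow_mul] at ga gb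
    rw [mul_comm q p] at gb h3
    rw [hG]
    have hXp : ((X : ℤ[X]) ^ p - 1) * (X ^ q - 1) ≠ 0 :=
      mul_ne_zero (by simpa using X_pow_sub_C_ne_zero hp.pos (1 : ℤ))
        (by simpa using X_pow_sub_C_ne_zero hq.pos (1 : ℤ))
    refine mul_right_cancel₀ hXp ?_
    linear_combination ((X : ℤ[X]) ^ (p * q) - 1) * (X - 1) * h3 -
      cyclotomic (p * q) ℤ * ((X : ℤ[X]) ^ (p * q) - 1) * (X ^ q - 1) * h2 -
      (X - 1) * ((∑ b ∈ Finset.range p, ((X : ℤ[X]) ^ q) ^ b) * (X ^ q - 1)) * ga -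
      (X - 1) * ((X : ℤ[X]) ^ (p * q) - 1) * gb
  have hG01 : ∀ m, 0 ≤ G.coeff m ∧ G.coeff m ≤ 1 := fun m => by
    have e : G.coeff m = (((Finset.range q ×ˢ Finset.range p).filter
        fun z => m = p * z.1 + q * z.2).card : ℤ) := by
      rw [hG, Finset.sum_mul_sum, ← Finset.sum_product', finsetSum_coeff, Finset.card_filter,
        Nat.cast_sum]
      refine Finset.sum_congr rfl fun z _ => ?_
      rw [← pow_mul, ← pow_mul, ← pow_add, coeff_X_pow]
      split_ifs <;> simp
    rw [e]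
    refine ⟨Int.natCast_nonneg _, ?_⟩
    exact_mod_cast Finset.card_le_one.2 fun z hz w hw => by
      simp only [Finset.mem_filter, Finset.mem_product, Finset.mem_range] at hz hw
      have hco : Nat.Coprime q p := (Nat.coprime_primes hq hp).2 (Ne.symm hne)
      have hmod : z.1 ≡ w.1 [MOD q] := by
        have h : p * z.1 ≡ p * w.1 [MOD q] := by
          have := hz.2.symm.trans hw.2
          calc p * z.1 ≡ p * z.1 + q * z.2 [MOD q] := Nat.ModEq.symm (by simp [Nat.ModEq])
            _ = p * w.1 + q * w.2 := this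
            _ ≡ p * w.1 [MOD q] := by simp [Nat.ModEq]
        exact Nat.ModEq.cancel_left_of_coprime hco h
      have h1 : z.1 = w.1 := hmod.eq_of_lt_of_lt hz.1.1 hw.1.1
      have h2 : z.2 = w.2 := by
        have := hz.2.symm.trans hw.2
        rw [h1] at this
        exact Nat.eq_of_mul_eq_mul_left hq.pos (Nat.add_left_cancel this)
      exact Prod.ext h1 h2
  rcases lt_or_ge k (p * q) with hk | hk
  · have h := congrArg (fun f => coeff f k) hmain
    rw [mul_sub, mul_one, coeff_sub, coeff_mul_X_pow', if_neg hk.not_ge, sub_mul, one_mul,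
      coeff_sub] at h
    obtain ⟨g0, g1⟩ := hG01 k
    rcases Nat.eq_zero_or_pos k with rfl | hk0
    · rw [mul_coeff_zero, coeff_X_zero, zero_mul] at h
      rw [abs_le]
      constructor <;> linarith
    · obtain ⟨i, rfl⟩ : ∃ i, k = i + 1 := ⟨k - 1, by omega⟩
      rw [coeff_X_mul] at h
      obtain ⟨f0, f1⟩ := hG01 i
      rw [abs_le]
      constructor <;> linarith
  · rw [coeff_eq_zero_of_natDegree_lt (lt_of_lt_of_le ?_ hk)]
    · norm_num
    · rw [natDegree_cyclotomic]
      exact Nat.totient_lt _ (by have := hp.two_le; have := hq.two_le; nlinarith)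

end FA.CyclotomicCoeff

end
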