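import Mathlib.RingTheory.Polynomial.Cyclotomic.Expand
import Mathlib.RingTheory.AdjoinRoot
import Mathlib.RingTheory.Nilpotent.Basic
import Mathlib.Algebra.Polynomial.Div
import Mathlib.Tactic

/-!
# Cyclotomic polynomials of products of primes, truncated

If `x ^ (p q) = 0` for all distinct primes `p, q` in `S`, then `Φ_{∏ S} (x)` is
`∏ (1 - x ^ p) / (1 - x)` for odd `|S|` and its inverse for even `|S|`.
-/

set_option autoImplicit false

noncomputable section

open Polynomial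

namespace FA.CyclotomicCoeff

/-- `ℤ[x] / (x ^ N)`. -/
abbrev Trunc (N : ℕ) : Type := AdjoinRoot ((X : ℤ[X]) ^ N)

theorem aeval_cyclotomic_mul {p n : ℕ} (hp : p.Prime) (hdvd : ¬p ∣ n) {A : Type*} [CommRing A]
    [Algebra ℤ A] (x : A) :
    aeval x (cyclotomic (n * p) ℤ) * aeval x (cyclotomic n ℤ) =
      aeval (x ^ p) (cyclotomic n ℤ) := by
  rw [← map_mul, ← cyclotomic_expand_eq_cyclotomic_mul hp hdvd, expand_aeval]

/-- The truncated product formula. -/
theorem aeval_squarefree (S : Finset ℕ) : ∀ (A : Type) [CommRing A] [Algebra ℤ A] (x : A),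
    S.Nonempty → (∀ p ∈ S, p.Prime) → (∀ p ∈ S, ∀ q ∈ S, p ≠ q → x ^ (p * q) = 0) →
      (Odd S.card → aeval x (cyclotomic (∏ p ∈ S, p) ℤ) * (1 - x) = ∏ p ∈ S, (1 - x ^ p)) ∧
      (Even S.card → aeval x (cyclotomic (∏ p ∈ S, p) ℤ) * ∏ p ∈ S, (1 - x ^ p) = 1 - x) := by
  induction S using Finset.induction_on with
  | empty => intro A _ _ x h; exact absurd h Finset.not_nonempty_empty
  | insert p S hp ih =>
    intro A _ _ x _ hprime hzero
    have hpp : p.Prime := hprime p (Finset.mem_insert_self _ _)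
    rw [Finset.prod_insert hp, Finset.prod_insert hp, Finset.card_insert_of_notMem hp]
    rcases S.eq_empty_or_nonempty with rfl | hS
    · simp only [Finset.card_empty, zero_add, Finset.prod_empty, mul_one]
      refine ⟨fun _ => ?_, fun h => absurd h (by decide)⟩
      have : Fact p.Prime := ⟨hpp⟩
      have h := congrArg (aeval x) (cyclotomic_prime_mul_X_sub_one ℤ p)
      simp only [map_mul, map_sub, aeval_X, map_one, map_pow] at h
      linear_combination -h
    have hS' : ∀ q ∈ S, q.Prime := fun q hq => hprime q (Finset.mem_insert_of_mem hq)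
    have hne : ∀ q ∈ S, p ≠ q := fun q hq h => hp (h ▸ hq)
    have hdvd : ¬p ∣ ∏ q ∈ S, q := fun h => by
      obtain ⟨q, hq, hpq⟩ := (Prime.dvd_finsetProd_iff hpp.prime _).1 h
      exact hne q hq ((Nat.prime_dvd_prime_iff_eq hpp (hS' q hq)).1 hpq)
    obtain ⟨i1, i2⟩ := ih A x hS hS' fun q hq r hr =>
      hzero q (Finset.mem_insert_of_mem hq) r (Finset.mem_insert_of_mem hr)
    have hy : ∀ q ∈ S, (x ^ p) ^ q = 0 := fun q hq => by
      rw [← pow_mul]
      exact hzero p (Finset.mem_insert_self _ _) q (Finset.mem_insert_of_mem hq) (hne q hq)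
    obtain ⟨j1, j2⟩ := ih A (x ^ p) hS hS' fun q hq r _ _ => by rw [pow_mul, hy q hq,
      zero_pow (Nat.Prime.ne_zero (hS' r ‹_›))]
    have hone : ∏ q ∈ S, (1 - (x ^ p) ^ q) = 1 :=
      Finset.prod_eq_one fun q hq => by rw [hy q hq, sub_zero]
    rw [hone] at j1 j2
    have hmul := aeval_cyclotomic_mul hpp hdvd x
    rw [mul_comm p (∏ q ∈ S, q)]
    constructor
    · intro hodd
      have hev : Even S.card := by rwa [Nat.odd_add_one, Nat.not_odd_iff_even] at hodd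
      have h1 := i2 hev
      have h2 := j2 hev
      rw [mul_one] at h2
      linear_combination (∏ q ∈ S, (1 - x ^ q)) * hmul + (∏ q ∈ S, (1 - x ^ q)) * h2 -
        aeval x (cyclotomic ((∏ q ∈ S, q) * p) ℤ) * h1
    · intro hev
      have hodd : Odd S.card := by rwa [Nat.even_add_one, Nat.not_even_iff_odd] at hev
      have h1 := i1 hodd
      have h2 := j1 hodd
      linear_combination (-(aeval x (cyclotomic ((∏ q ∈ S, q) * p) ℤ)) * (1 - x ^ p)) * h1 +
        (1 - x) * (1 - x ^ p) * hmul + (1 - x) * h2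

theorem prod_one_sub {A : Type*} [CommRing A] (x : A) (S : Finset ℕ)
    (h : ∀ p ∈ S, ∀ q ∈ S, p ≠ q → x ^ (p + q) = 0) :
    ∏ p ∈ S, (1 - x ^ p) = 1 - ∑ p ∈ S, x ^ p := by
  classical
  induction S using Finset.induction_on with
  | empty => simp
  | insert p S hp ih =>
    rw [Finset.prod_insert hp, Finset.sum_insert hp,
      ih fun q hq r hr => h q (Finset.mem_insert_of_mem hq) r (Finset.mem_insert_of_mem hr)]
    have : x ^ p * ∑ q ∈ S, x ^ q = 0 := by
      rw [Finset.mul_sum]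
      refine Finset.sum_eq_zero fun q hq => ?_
      rw [← pow_add]
      exact h p (Finset.mem_insert_self _ _) q (Finset.mem_insert_of_mem hq) fun e => hp (e ▸ hq)
    linear_combination this

/-- The coefficients below `N` of a polynomial from a truncated identity. -/
theorem coeff_of_truncation {N : ℕ} {f : ℤ[X]} {s : ℤ} {S : Finset ℕ}
    (h : aeval (AdjoinRoot.root ((X : ℤ[X]) ^ N)) f =
      (∑ i ∈ Finset.range N, ((s : AdjoinRoot ((X : ℤ[X]) ^ N)) *
        AdjoinRoot.root ((X : ℤ[X]) ^ N)) ^ i) *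
      (1 - ∑ p ∈ S, ((s : AdjoinRoot ((X : ℤ[X]) ^ N)) *
        AdjoinRoot.root ((X : ℤ[X]) ^ N)) ^ p))
    {k : ℕ} (hk : k < N) : f.coeff k = s ^ k * (1 - ((S.filter fun p => p ≤ k).card : ℤ)) := by
  obtain ⟨g, hg⟩ : ∃ g : ℤ[X], g = (∑ i ∈ Finset.range N, (C s * X) ^ i) *
      (1 - ∑ p ∈ S, (C s * X) ^ p) := ⟨_, rfl⟩
  have hfg : aeval (AdjoinRoot.root ((X : ℤ[X]) ^ N)) f =
      aeval (AdjoinRoot.root ((X : ℤ[X]) ^ N)) g := by
    rw [h, hg]
    simp
  rw [AdjoinRoot.aeval_eq, AdjoinRoot.aeval_eq, AdjoinRoot.mk_eq_mk, X_pow_dvd_iff] at hfg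
  have hc := hfg k hk
  rw [coeff_sub, sub_eq_zero] at hc
  rw [hc, hg, mul_sub, mul_one, coeff_sub, Finset.mul_sum, finsetSum_coeff, finsetSum_coeff]
  have hgeom : ∀ m, (∑ i ∈ Finset.range N, (C s * X) ^ i).coeff m = if m < N then s ^ m else 0 := by
    intro m
    rw [finsetSum_coeff]
    simp only [mul_pow, ← C_pow, coeff_C_mul, coeff_X_pow, mul_ite, mul_one, mul_zero,
      Finset.sum_ite_eq, Finset.mem_range]
  rw [← finsetSum_coeff, hgeom, if_pos hk, Finset.card_filter, mul_sub, mul_one, Nat.cast_sum,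
    Finset.mul_sum]
  congr 1
  refine Finset.sum_congr rfl fun p _ => ?_
  rw [mul_pow (C s) X p, ← map_pow, ← mul_assoc, coeff_mul_X_pow', mul_comm _ (C (s ^ p))]
  split_ifs with hp
  · rw [coeff_C_mul, hgeom, if_pos (by omega), ← pow_add, Nat.add_sub_cancel' hp, Nat.cast_one,
      mul_one]
  · simp

theorem isUnit_one_sub {N : ℕ} (c : AdjoinRoot ((X : ℤ[X]) ^ N)) {p : ℕ} (hp : 0 < p) :
    IsUnit (1 - (c * AdjoinRoot.root ((X : ℤ[X]) ^ N)) ^ p) := by
  refine IsNilpotent.isUnit_one_sub ⟨N, ?_⟩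
  have h0 : AdjoinRoot.root ((X : ℤ[X]) ^ N) ^ N = 0 := by
    have := AdjoinRoot.eval₂_root ((X : ℤ[X]) ^ N)
    simpa using this
  rw [← pow_mul, mul_pow]
  obtain ⟨m, hm⟩ := Nat.exists_eq_add_of_le (Nat.le_mul_of_pos_left N hp)
  rw [hm, pow_add, pow_add _ N m, h0]
  ring

theorem geom_mul {N : ℕ} (c : AdjoinRoot ((X : ℤ[X]) ^ N)) :
    (∑ i ∈ Finset.range N, (c * AdjoinRoot.root ((X : ℤ[X]) ^ N)) ^ i) *
      (1 - c * AdjoinRoot.root ((X : ℤ[X]) ^ N)) = 1 := by
  have h0 : AdjoinRoot.root ((X : ℤ[X]) ^ N) ^ N = 0 := by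
    have := AdjoinRoot.eval₂_root ((X : ℤ[X]) ^ N)
    simpa using this
  rw [geom_sum_mul_neg, mul_pow, h0, mul_zero, sub_zero]

/-- **The coefficients of `Φ_n` and `Φ_{2n}` below `N`.** -/
theorem coeff_squarefree {S : Finset ℕ} {N k : ℕ} (hk : k < N) (hodd : Odd S.card)
    (hS : ∀ p ∈ S, p.Prime ∧ p ≠ 2) (hbig : ∀ p ∈ S, ∀ q ∈ S, p ≠ q → N ≤ p + q) :
    (cyclotomic (∏ p ∈ S, p) ℤ).coeff k = 1 - ((S.filter fun p => p ≤ k).card : ℤ) ∧
      (cyclotomic ((∏ p ∈ S, p) * 2) ℤ).coeff k =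
        (-1) ^ k * (1 - ((S.filter fun p => p ≤ k).card : ℤ)) := by
  have hne : S.Nonempty := Finset.card_pos.1 hodd.pos
  have hN : 0 < N := by omega
  set x : Trunc N := AdjoinRoot.root ((X : ℤ[X]) ^ N) with hx
  have h0 : x ^ N = 0 := by
    have := AdjoinRoot.eval₂_root ((X : ℤ[X]) ^ N)
    simpa [hx] using this
  have hz : ∀ (c : Trunc N) (m : ℕ), N ≤ m → (c * x) ^ m = 0 := fun c m hm => by
    obtain ⟨j, rfl⟩ := Nat.exists_eq_add_of_le hm
    rw [mul_pow, pow_add x, h0]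
    ring
  have hsum : ∀ p ∈ S, ∀ q ∈ S, p + q ≤ p * q := fun p hp q hq =>
    Nat.add_le_mul (hS p hp).1.two_le (hS q hq).1.two_le
  have main : ∀ c : Trunc N, aeval (c * x) (cyclotomic (∏ p ∈ S, p) ℤ) * (1 - c * x) =
      1 - ∑ p ∈ S, (c * x) ^ p := fun c => by
    rw [(aeval_squarefree S (Trunc N) (c * x) hne (fun p hp => (hS p hp).1)
      fun p hp q hq h => hz c _ ((hbig p hp q hq h).trans (hsum p hp q hq))).1 hodd,
      prod_one_sub _ _ fun p hp q hq h => hz c _ (hbig p hp q hq h)]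
  have val : ∀ c : Trunc N, aeval (c * x) (cyclotomic (∏ p ∈ S, p) ℤ) =
      (∑ i ∈ Finset.range N, (c * x) ^ i) * (1 - ∑ p ∈ S, (c * x) ^ p) := fun c => by
    rw [← main c]
    linear_combination (-(aeval (c * x) (cyclotomic (∏ p ∈ S, p) ℤ))) * geom_mul c
  constructor
  · have h1 := val 1
    rw [one_mul] at h1
    simpa using coeff_of_truncation (s := 1) (S := S) (f := cyclotomic (∏ p ∈ S, p) ℤ)
      (by rw [← hx]; simpa using h1) hk
  have hdvd : ¬2 ∣ ∏ p ∈ S, p := fun h => by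
    obtain ⟨q, hq, h2⟩ := (Prime.dvd_finsetProd_iff Nat.prime_two.prime _).1 h
    exact (hS q hq).2 ((Nat.prime_dvd_prime_iff_eq Nat.prime_two (hS q hq).1).1 h2).symm
  have hmul := aeval_cyclotomic_mul Nat.prime_two hdvd x
  have hpow : ∀ p ∈ S, Odd p := fun p hp => (hS p hp).1.odd_of_ne_two (hS p hp).2
  -- the identity at `x ^ 2`
  have hsq : aeval (x ^ 2) (cyclotomic (∏ p ∈ S, p) ℤ) * (1 - x ^ 2) =
      ∏ p ∈ S, (1 - (x ^ 2) ^ p) := by
    refine (aeval_squarefree S (Trunc N) (x ^ 2) hne (fun p hp => (hS p hp).1)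
      fun p hp q hq h => ?_).1 hodd
    rw [← pow_mul]
    have := hz 1 (2 * (p * q)) (by have := hbig p hp q hq h; have := hsum p hp q hq; omega)
    rwa [one_mul] at this
  have hp1 : ∀ c : Trunc N, aeval (c * x) (cyclotomic (∏ p ∈ S, p) ℤ) * (1 - c * x) =
      ∏ p ∈ S, (1 - (c * x) ^ p) := fun c => by
    rw [main c, prod_one_sub _ _ fun p hp q hq h => hz c _ (hbig p hp q hq h)]
  have hprod : ∏ p ∈ S, (1 - (x ^ 2) ^ p) =
      (∏ p ∈ S, (1 - (1 * x) ^ p)) * ∏ p ∈ S, (1 - ((-1) * x) ^ p) := by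
    rw [← Finset.prod_mul_distrib]
    refine Finset.prod_congr rfl fun p hp => ?_
    rw [one_mul, mul_pow, (hpow p hp).neg_one_pow]
    ring
  rw [hprod, ← hp1 1, ← hp1 (-1)] at hsq
  simp only [one_mul, neg_one_mul, sub_neg_eq_add] at hsq
  have hu1 : IsUnit (1 - x) := by simpa using isUnit_one_sub (N := N) 1 one_pos
  have hu2 : IsUnit (1 + x) := by simpa [← hx] using isUnit_one_sub (N := N) (-1) one_pos
  have hu3 : IsUnit (aeval x (cyclotomic (∏ p ∈ S, p) ℤ)) := by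
    have h := hp1 1
    rw [one_mul] at h
    refine isUnit_of_mul_isUnit_left (y := 1 - x) ?_
    rw [h, IsUnit.prod_iff]
    exact fun p hp => by simpa [← hx] using isUnit_one_sub (N := N) 1 (hS p hp).1.pos
  have e2 : aeval x (cyclotomic ((∏ p ∈ S, p) * 2) ℤ) =
      aeval (-x) (cyclotomic (∏ p ∈ S, p) ℤ) := by
    refine ((hu3.mul hu1).mul hu2).mul_left_inj.1 ?_
    linear_combination (1 - x) * (1 + x) * hmul + hsq
  have hneg := val (-1)
  rw [neg_one_mul] at hneg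
  exact coeff_of_truncation (s := -1) (S := S) (f := cyclotomic ((∏ p ∈ S, p) * 2) ℤ)
    (by rw [← hx, e2]; simpa using hneg) hk

end FA.CyclotomicCoeff

end
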